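import Mathlib.Analysis.InnerProductSpace.PiL2
import Mathlib.Analysis.SpecialFunctions.Trigonometric.Inverse
import Mathlib.Analysis.SpecialFunctions.Trigonometric.Angle
import Mathlib.Analysis.Real.Cardinality
import Mathlib.GroupTheory.FreeGroup.Reduce
import Mathlib.Topology.MetricSpace.Isometry
import Mathlib.Data.ZMod.Basic
import Mathlib.Tactic

/-!
# A free group of rotations of space

The rotations by the angle with cosine `3 / 5` about two coordinate axes generate a free group: in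
the coordinates modulo `5` every reduced word acts with rank one and never vanishes.
-/

set_option autoImplicit false

noncomputable section

open Real

namespace FA.BanachTarski

/-- Euclidean three-space. -/
abbrev E3 := EuclideanSpace ℝ (Fin 3)

/-- A point by its coordinates. -/
def pt (x y z : ℝ) : E3 := WithLp.toLp 2 ![x, y, z]

@[simp] theorem pt_zero (x y z : ℝ) : pt x y z 0 = x := rfl
@[simp] theorem pt_one (x y z : ℝ) : pt x y z 1 = y := rfl
@[simp] theorem pt_two (x y z : ℝ) : pt x y z 2 = z := rfl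

theorem ext3 {p q : E3} (h0 : p 0 = q 0) (h1 : p 1 = q 1) (h2 : p 2 = q 2) : p = q := by
  ext i
  fin_cases i
  · exact h0
  · exact h1
  · exact h2

theorem dist_eq_sqrt (p q : E3) :
    dist p q = √((p 0 - q 0) ^ 2 + (p 1 - q 1) ^ 2 + (p 2 - q 2) ^ 2) := by
  rw [EuclideanSpace.dist_eq, Fin.sum_univ_three]
  simp [Real.dist_eq]

/-- The rotation about the last axis. -/
def rotZ (θ : ℝ) : E3 ≃ᵢ E3 where
  toFun p := pt (cos θ * p 0 - sin θ * p 1) (sin θ * p 0 + cos θ * p 1) (p 2)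
  invFun p := pt (cos θ * p 0 + sin θ * p 1) (-(sin θ * p 0) + cos θ * p 1) (p 2)
  left_inv p := ext3 (by simp; linear_combination p 0 * sin_sq_add_cos_sq θ)
    (by simp; linear_combination p 1 * sin_sq_add_cos_sq θ) (by simp)
  right_inv p := ext3 (by simp; linear_combination p 0 * sin_sq_add_cos_sq θ)
    (by simp; linear_combination p 1 * sin_sq_add_cos_sq θ) (by simp)
  isometry_toFun := Isometry.of_dist_eq fun p q => by
    simp only [dist_eq_sqrt, pt_zero, pt_one, pt_two]
    congr 1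
    linear_combination ((p 0 - q 0) ^ 2 + (p 1 - q 1) ^ 2) * sin_sq_add_cos_sq θ

/-- The rotation about the first axis. -/
def rotX (θ : ℝ) : E3 ≃ᵢ E3 where
  toFun p := pt (p 0) (cos θ * p 1 - sin θ * p 2) (sin θ * p 1 + cos θ * p 2)
  invFun p := pt (p 0) (cos θ * p 1 + sin θ * p 2) (-(sin θ * p 1) + cos θ * p 2)
  left_inv p := ext3 (by simp) (by simp; linear_combination p 1 * sin_sq_add_cos_sq θ)
    (by simp; linear_combination p 2 * sin_sq_add_cos_sq θ)
  right_inv p := ext3 (by simp) (by simp; linear_combination p 1 * sin_sq_add_cos_sq θ)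
    (by simp; linear_combination p 2 * sin_sq_add_cos_sq θ)
  isometry_toFun := Isometry.of_dist_eq fun p q => by
    simp only [dist_eq_sqrt, pt_zero, pt_one, pt_two]
    congr 1
    linear_combination ((p 1 - q 1) ^ 2 + (p 2 - q 2) ^ 2) * sin_sq_add_cos_sq θ

theorem rotZ_apply (θ : ℝ) (p : E3) :
    rotZ θ p = pt (cos θ * p 0 - sin θ * p 1) (sin θ * p 0 + cos θ * p 1) (p 2) := rfl

theorem rotX_apply (θ : ℝ) (p : E3) :
    rotX θ p = pt (p 0) (cos θ * p 1 - sin θ * p 2) (sin θ * p 1 + cos θ * p 2) := rfl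

theorem rotZ_inv_apply (θ : ℝ) (p : E3) :
    (rotZ θ)⁻¹ p = pt (cos θ * p 0 + sin θ * p 1) (-(sin θ * p 0) + cos θ * p 1) (p 2) := rfl

theorem rotX_inv_apply (θ : ℝ) (p : E3) :
    (rotX θ)⁻¹ p = pt (p 0) (cos θ * p 1 + sin θ * p 2) (-(sin θ * p 1) + cos θ * p 2) := rfl

theorem rotZ_pow (θ : ℝ) (n : ℕ) : rotZ θ ^ n = rotZ (n * θ) := by
  induction n with
  | zero => ext p i; fin_cases i <;> simp [rotZ_apply]
  | succ n ih =>
    refine IsometryEquiv.ext fun p => ?_
    rw [pow_succ', IsometryEquiv.mul_apply, ih, Nat.cast_succ, add_mul, one_mul]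
    refine ext3 ?_ ?_ ?_ <;> simp [rotZ_apply, cos_add, sin_add] <;> ring

/-- The cross product. -/
def cross (p q : E3) : E3 :=
  pt (p 1 * q 2 - p 2 * q 1) (p 2 * q 0 - p 0 * q 2) (p 0 * q 1 - p 1 * q 0)

/-- Linear in scalars and compatible with the cross product. -/
structure Proper (g : E3 ≃ᵢ E3) : Prop where
  map_smul : ∀ (c : ℝ) (p : E3), g (c • p) = c • g p
  map_cross : ∀ p q, g (cross p q) = cross (g p) (g q)

theorem Proper.mul {g h : E3 ≃ᵢ E3} (hg : Proper g) (hh : Proper h) : Proper (g * h) :=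
  ⟨fun c p => by simp [hh.map_smul, hg.map_smul], fun p q => by simp [hh.map_cross, hg.map_cross]⟩

theorem Proper.one : Proper (1 : E3 ≃ᵢ E3) := ⟨fun _ _ => rfl, fun _ _ => rfl⟩

theorem Proper.inv {g : E3 ≃ᵢ E3} (hg : Proper g) : Proper g⁻¹ :=
  ⟨fun c p => g.injective (by rw [hg.map_smul]; simp [IsometryEquiv.apply_inv_self]),
    fun p q => g.injective (by rw [hg.map_cross]; simp [IsometryEquiv.apply_inv_self])⟩

theorem Proper.map_zero {g : E3 ≃ᵢ E3} (hg : Proper g) : g 0 = 0 := by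
  simpa using hg.map_smul 0 0

theorem proper_rotZ (θ : ℝ) : Proper (rotZ θ) := by
  refine ⟨fun c p => ext3 ?_ ?_ ?_, fun p q => ext3 ?_ ?_ ?_⟩
  all_goals simp [rotZ_apply, cross]
  any_goals ring1
  all_goals linear_combination -((p 0 * q 1 - p 1 * q 0)) * sin_sq_add_cos_sq θ

theorem proper_rotX (θ : ℝ) : Proper (rotX θ) := by
  refine ⟨fun c p => ext3 ?_ ?_ ?_, fun p q => ext3 ?_ ?_ ?_⟩
  all_goals simp [rotX_apply, cross]
  any_goals ring1
  all_goals linear_combination -((p 1 * q 2 - p 2 * q 1)) * sin_sq_add_cos_sq θ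

/-- A proper motion fixing two independent vectors is the identity. -/
theorem Proper.cross_eq_zero {g : E3 ≃ᵢ E3} (hg : Proper g) {a b : E3} (ha : g a = a)
    (hb : g b = b) (hne : g ≠ 1) : cross a b = 0 := by
  by_contra hc
  refine hne (IsometryEquiv.ext fun x => ?_)
  have hfix : g (cross a b) = cross a b := by rw [hg.map_cross, ha, hb]
  have key : ∀ c, g c = c →
      (g x 0 - x 0) * c 0 + (g x 1 - x 1) * c 1 + (g x 2 - x 2) * c 2 = 0 := fun c hgc => by
    have h1 := g.dist_eq x c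
    have h2 := g.dist_eq x 0
    rw [hgc, dist_eq_sqrt, dist_eq_sqrt, Real.sqrt_inj (by positivity) (by positivity)] at h1
    rw [hg.map_zero, dist_eq_sqrt, dist_eq_sqrt, Real.sqrt_inj (by positivity) (by positivity)]
      at h2
    simp at h2
    linear_combination (h2 - h1) / 2
  have e1 := key a ha
  have e2 := key b hb
  have e3 := key _ hfix
  simp only [cross, pt_zero, pt_one, pt_two] at e3
  set d0 := g x 0 - x 0 with hd0
  set d1 := g x 1 - x 1 with hd1
  set d2 := g x 2 - x 2 with hd2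
  have hpos : 0 < (cross a b 0) ^ 2 + (cross a b 1) ^ 2 + (cross a b 2) ^ 2 := by
    refine lt_of_le_of_ne (by positivity) fun h => hc (ext3 ?_ ?_ ?_)
    all_goals
      have h0 := sq_nonneg (cross a b 0)
      have h1 := sq_nonneg (cross a b 1)
      have h2 := sq_nonneg (cross a b 2)
      refine sq_eq_zero_iff.1 ?_
      linarith
  have h : (d0 ^ 2 + d1 ^ 2 + d2 ^ 2) *
      ((cross a b 0) ^ 2 + (cross a b 1) ^ 2 + (cross a b 2) ^ 2) = 0 := by
    simp only [cross, pt_zero, pt_one, pt_two]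
    linear_combination (d0 * (a 1 * b 2 - a 2 * b 1) + d1 * (a 2 * b 0 - a 0 * b 2) +
      d2 * (a 0 * b 1 - a 1 * b 0)) * e3 +
      ((d0 * a 0 + d1 * a 1 + d2 * a 2) * (b 0 ^ 2 + b 1 ^ 2 + b 2 ^ 2) -
        (d0 * b 0 + d1 * b 1 + d2 * b 2) * (a 0 * b 0 + a 1 * b 1 + a 2 * b 2)) * e1 +
      ((d0 * b 0 + d1 * b 1 + d2 * b 2) * (a 0 ^ 2 + a 1 ^ 2 + a 2 ^ 2) -
        (d0 * a 0 + d1 * a 1 + d2 * a 2) * (a 0 * b 0 + a 1 * b 1 + a 2 * b 2)) * e2
  have h' : d0 ^ 2 + d1 ^ 2 + d2 ^ 2 = 0 := (mul_eq_zero.1 h).resolve_right hpos.ne'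
  refine ext3 ?_ ?_ ?_ <;>
    · refine sub_eq_zero.1 (sq_eq_zero_iff.1 ?_)
      simp only [IsometryEquiv.coe_one, id_eq, ← hd0, ← hd1, ← hd2]
      have := sq_nonneg d0
      have := sq_nonneg d1
      have := sq_nonneg d2
      linarith

/-- The angle with cosine `3 / 5`. -/
def angle : ℝ := arccos (3 / 5)

theorem cos_angle : cos angle = 3 / 5 := cos_arccos (by norm_num) (by norm_num)

theorem sin_angle : sin angle = 4 / 5 := by
  rw [angle, sin_arccos, show (1 : ℝ) - (3 / 5) ^ 2 = (4 / 5) ^ 2 by norm_num,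
    sqrt_sq (by norm_num)]

/-- The representation. -/
def toRot : FreeGroup Bool →* (E3 ≃ᵢ E3) :=
  FreeGroup.lift fun b => if b then rotX angle else rotZ angle

theorem proper_toRot (w : FreeGroup Bool) : Proper (toRot w) := by
  induction w using FreeGroup.induction_on with
  | C1 => rw [map_one]; exact Proper.one
  | of b =>
    rw [toRot, FreeGroup.lift_apply_of]
    cases b
    · exact proper_rotZ angle
    · exact proper_rotX angle
  | inv_of b h => rw [map_inv]; exact h.inv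
  | mul v w hv hw => rw [map_mul]; exact hv.mul hw

/-- Five times the action of a letter. -/
def step {R : Type*} [CommRing R] : Bool × Bool → R × R × R → R × R × R
  | (false, true), (x, y, z) => (3 * x - 4 * y, 4 * x + 3 * y, 5 * z)
  | (false, false), (x, y, z) => (3 * x + 4 * y, -4 * x + 3 * y, 5 * z)
  | (true, true), (x, y, z) => (5 * x, 3 * y - 4 * z, 4 * y + 3 * z)
  | (true, false), (x, y, z) => (5 * x, 3 * y + 4 * z, -4 * y + 3 * z)

/-- The line of residues belonging to a letter. -/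
def OnLine : Bool × Bool → ZMod 5 × ZMod 5 × ZMod 5 → Prop
  | (false, true), (x, y, z) => x ≠ 0 ∧ y = 3 * x ∧ z = 0
  | (false, false), (x, y, z) => x ≠ 0 ∧ y = 2 * x ∧ z = 0
  | (true, true), (x, y, z) => x = 0 ∧ y ≠ 0 ∧ z = 3 * y
  | (true, false), (x, y, z) => x = 0 ∧ y ≠ 0 ∧ z = 2 * y

theorem onLine_step (l l' : Bool × Bool) (h : l.1 = l'.1 → l.2 = l'.2)
    {v : ZMod 5 × ZMod 5 × ZMod 5}
    (hv : OnLine l' v) : OnLine l (step l v) := by
  obtain ⟨x, y, z⟩ := v
  obtain ⟨a, b⟩ := l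
  obtain ⟨a', b'⟩ := l'
  cases a <;> cases b <;> cases a' <;> cases b' <;> simp at h <;>
    obtain ⟨h1, h2, h3⟩ := hv <;> simp only [OnLine, step] <;> subst_vars <;>
    first
    | (revert x; decide)
    | (revert y; decide)

theorem onLine_start (l : Bool × Bool) :
    OnLine l (step l ((1, 0, 1) : ZMod 5 × ZMod 5 × ZMod 5)) := by
  obtain ⟨a, b⟩ := l
  cases a <;> cases b <;> simp only [OnLine, step] <;> decide

theorem not_onLine_zero (l : Bool × Bool) : ¬ OnLine l (0, 0, 0) := by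
  obtain ⟨a, b⟩ := l
  cases a <;> cases b <;> simp [OnLine]

/-- The point of three coordinates. -/
def ofTriple (v : ℝ × ℝ × ℝ) : E3 := pt v.1 v.2.1 v.2.2

/-- The residues of three integers. -/
def residues (v : ℤ × ℤ × ℤ) : ZMod 5 × ZMod 5 × ZMod 5 := (v.1, v.2.1, v.2.2)

theorem residues_step (l : Bool × Bool) (v : ℤ × ℤ × ℤ) :
    residues (step l v) = step l (residues v) := by
  obtain ⟨a, b⟩ := l
  cases a <;> cases b <;> simp [residues, step]

theorem toRot_letter (l : Bool × Bool) (v : ℤ × ℤ × ℤ) (n : ℕ) :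
    (cond l.2 (if l.1 then rotX angle else rotZ angle) (if l.1 then rotX angle else rotZ angle)⁻¹)
        (pt (v.1 / 5 ^ n) (v.2.1 / 5 ^ n) (v.2.2 / 5 ^ n)) =
      pt ((step l v).1 / 5 ^ (n + 1)) ((step l v).2.1 / 5 ^ (n + 1))
        ((step l v).2.2 / 5 ^ (n + 1)) := by
  obtain ⟨a, b⟩ := l
  cases a <;> cases b <;>
    refine ext3 ?_ ?_ ?_ <;>
    simp [rotX_apply, rotZ_apply, rotX_inv_apply, rotZ_inv_apply, step, cos_angle, sin_angle,
      pow_succ] <;> field_simp

/-- The orbit of the test point in integers. -/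
theorem exists_coords : ∀ (L : List (Bool × Bool)) (l : Bool × Bool),
    FreeGroup.IsReduced (l :: L) → ∃ v : ℤ × ℤ × ℤ,
      toRot (FreeGroup.mk (l :: L)) (pt 1 0 1) =
          pt (v.1 / 5 ^ (L.length + 1)) (v.2.1 / 5 ^ (L.length + 1)) (v.2.2 / 5 ^ (L.length + 1)) ∧
        OnLine l (residues v) := by
  have hstep : ∀ l L, toRot (FreeGroup.mk (l :: L)) =
      cond l.2 (if l.1 then rotX angle else rotZ angle) (if l.1 then rotX angle else rotZ angle)⁻¹ *
        toRot (FreeGroup.mk L) := fun l L => by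
    rw [toRot, FreeGroup.lift_mk, FreeGroup.lift_mk, List.map_cons, List.prod_cons]
  intro L
  induction L with
  | nil =>
    intro l _
    refine ⟨step l (1, 0, 1), ?_, ?_⟩
    · rw [hstep, IsometryEquiv.mul_apply, List.length_nil, zero_add, ← zero_add 1,
        ← toRot_letter l (1, 0, 1) 0]
      congr 1
      rw [← FreeGroup.one_eq_mk, map_one]
      simp
    · rw [residues_step]
      simpa [residues] using onLine_start l
  | cons l' L ih =>
    intro l hred
    rw [FreeGroup.IsReduced, List.isChain_cons_cons] at hred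
    obtain ⟨v, hv, hline⟩ := ih l' hred.2
    refine ⟨step l v, ?_, ?_⟩
    · rw [hstep, IsometryEquiv.mul_apply, hv, List.length_cons, toRot_letter]
    · rw [residues_step]
      exact onLine_step l l' hred.1 hline

/-- **The rotations form a free group.** -/
theorem toRot_injective : Function.Injective toRot := by
  refine (injective_iff_map_eq_one toRot).2 fun w hw => ?_
  by_contra hne
  have hwd : w.toWord ≠ [] := fun h => hne (FreeGroup.toWord_eq_nil_iff.1 h)
  obtain ⟨l, L, hL⟩ := List.exists_cons_of_ne_nil hwd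
  obtain ⟨v, hv, hline⟩ := exists_coords L l (hL ▸ FreeGroup.isReduced_toWord)
  rw [← hL, FreeGroup.mk_toWord, hw, IsometryEquiv.coe_one, id_eq] at hv
  have h1 := congrArg (fun p : E3 => p 0) hv
  have h2 := congrArg (fun p : E3 => p 1) hv
  have h3 := congrArg (fun p : E3 => p 2) hv
  simp only [pt_zero, pt_one, pt_two] at h1 h2 h3
  rw [eq_div_iff (by positivity)] at h1 h2 h3
  refine not_onLine_zero l ?_
  have hx : v.1 = 5 ^ (L.length + 1) := by exact_mod_cast (by linarith : (v.1 : ℝ) = 5 ^ _)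
  have hy : v.2.1 = 0 := by exact_mod_cast (by linarith : (v.2.1 : ℝ) = 0)
  have hz : v.2.2 = 5 ^ (L.length + 1) := by exact_mod_cast (by linarith : (v.2.2 : ℝ) = 5 ^ _)
  have e5' : (5 : ZMod 5) = 0 := by decide
  simpa [residues, hx, hy, hz, pow_succ, e5'] using hline

/-- The angles with given cosine and sine. -/
theorem countable_angles (a b : ℝ) : {φ : ℝ | cos φ = a ∧ sin φ = b}.Countable := by
  rcases Set.eq_empty_or_nonempty {φ : ℝ | cos φ = a ∧ sin φ = b} with h | ⟨φ₀, h₀⟩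
  · rw [h]
    exact Set.countable_empty
  · refine (Set.countable_range fun k : ℤ => φ₀ + 2 * π * k).mono fun φ hφ => ?_
    obtain ⟨k, hk⟩ := Real.Angle.angle_eq_iff_two_pi_dvd_sub.1
      (Real.Angle.cos_sin_inj (hφ.1.trans h₀.1.symm) (hφ.2.trans h₀.2.symm))
    exact ⟨k, by linarith⟩

/-- A rotation never returning a countable set to itself. -/
theorem exists_angle {D : Set E3} (hD : D.Countable) (hoff : ∀ d ∈ D, d 0 ≠ 0 ∨ d 1 ≠ 0) :
    ∃ θ : ℝ, ∀ n : ℕ, ∀ d ∈ D, (rotZ θ ^ (n + 1)) d ∉ D := by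
  have hbad : (⋃ n : ℕ, ⋃ d ∈ D, ⋃ e ∈ D,
      {θ : ℝ | rotZ (((n + 1 : ℕ) : ℝ) * θ) d = e}).Countable := by
    refine Set.countable_iUnion fun n => hD.biUnion fun d hd => hD.biUnion fun e _ => ?_
    have hr : 0 < d 0 ^ 2 + d 1 ^ 2 := by
      rcases hoff d hd with h | h <;> positivity
    refine ((countable_angles ((d 0 * e 0 + d 1 * e 1) / (d 0 ^ 2 + d 1 ^ 2))
      ((d 0 * e 1 - d 1 * e 0) / (d 0 ^ 2 + d 1 ^ 2))).preimage
        (mul_right_injective₀ (by positivity : ((n + 1 : ℕ) : ℝ) ≠ 0))).mono fun θ hθ => ?_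
    simp only [Set.mem_preimage, Set.mem_ofPred_eq] at hθ ⊢
    rw [← hθ, eq_div_iff hr.ne', eq_div_iff hr.ne']
    simp [rotZ_apply]
    constructor <;> ring
  obtain ⟨θ, hθ⟩ : ∃ θ, θ ∉ (⋃ n : ℕ, ⋃ d ∈ D, ⋃ e ∈ D,
      {θ : ℝ | rotZ (((n + 1 : ℕ) : ℝ) * θ) d = e}) := by
    by_contra! h
    exact Cardinal.not_countable_real (hbad.mono fun θ _ => h θ)
  refine ⟨θ, fun n d hd he => hθ ?_⟩
  rw [rotZ_pow] at he
  simp only [Set.mem_iUnion]
  exact ⟨n, d, hd, _, he, rfl⟩

end FA.BanachTarski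

end
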