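import Fermat.Agent.BanachTarski.Paradox
import Fermat.Agent.BanachTarski.Rotations

/-!
# The Banach–Tarski paradox

The points of the punctured ball fixed by a nontrivial rotation of the free group lie on countably
many rays, which are absorbed by a further rotation; so is the centre.
-/

set_option autoImplicit false

noncomputable section

open Set

namespace FA.BanachTarski

/-- A translation of space. -/
def shift (v : E3) : E3 ≃ᵢ E3 where
  toFun p := p + v
  invFun p := p - v
  left_inv p := add_sub_cancel_right p v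
  right_inv p := sub_add_cancel p v
  isometry_toFun := Isometry.of_dist_eq fun p q => dist_add_right p q v

theorem shift_apply (v p : E3) : shift v p = p + v := rfl

theorem shift_inv_apply (v p : E3) : (shift v)⁻¹ p = p - v := rfl

/-- The closed unit ball. -/
abbrev ball : Set E3 := Metric.closedBall 0 1

theorem mem_ball_of_proper {g : E3 ≃ᵢ E3} (hg : Proper g) {x : E3} (hx : x ∈ ball) :
    g x ∈ ball := by
  rw [Metric.mem_closedBall, ← hg.map_zero, g.dist_eq]
  exact hx

/-- The unit vectors fixed by some nontrivial rotation of the free group. -/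
def poles : Set E3 := {u | ‖u‖ = 1 ∧ ∃ w, w ≠ 1 ∧ toRot w u = u}

theorem dot_eq {a b : E3} (ha : ‖a‖ = 1) (hb : ‖b‖ = 1) (h : cross a b = 0) : b = a ∨ b = -a := by
  have hsq : ∀ p : E3, ‖p‖ = 1 → p 0 ^ 2 + p 1 ^ 2 + p 2 ^ 2 = 1 := fun p hp => by
    have := dist_eq_sqrt p 0
    rw [dist_zero_right, hp, eq_comm, Real.sqrt_eq_one] at this
    simpa using this
  have hA := hsq a ha
  have hB := hsq b hb
  have c0 := congrArg (fun p : E3 => p 0) h
  have c1 := congrArg (fun p : E3 => p 1) h
  have c2 := congrArg (fun p : E3 => p 2) h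
  simp [cross] at c0 c1 c2
  set t := a 0 * b 0 + a 1 * b 1 + a 2 * b 2 with ht
  have ht2 : t ^ 2 = 1 := by
    rw [ht]
    linear_combination (b 0 ^ 2 + b 1 ^ 2 + b 2 ^ 2) * hA + hB -
      (a 1 * b 2 - a 2 * b 1) * c0 - (a 2 * b 0 - a 0 * b 2) * c1 -
      (a 0 * b 1 - a 1 * b 0) * c2
  have hd : (b 0 - t * a 0) ^ 2 + (b 1 - t * a 1) ^ 2 + (b 2 - t * a 2) ^ 2 = 0 := by
    linear_combination t ^ 2 * hA + hB - ht2 + 2 * t * ht
  have z : ∀ {u v w : ℝ}, u ^ 2 + v ^ 2 + w ^ 2 = 0 → u = 0 ∧ v = 0 ∧ w = 0 := fun {u v w} huvw =>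
    ⟨sq_eq_zero_iff.1 (by nlinarith), sq_eq_zero_iff.1 (by nlinarith),
      sq_eq_zero_iff.1 (by nlinarith)⟩
  obtain ⟨z0, z1, z2⟩ := z hd
  rcases sq_eq_one_iff.1 ht2 with e | e <;> rw [e] at z0 z1 z2
  · exact Or.inl (ext3 (by linarith) (by linarith) (by linarith))
  · exact Or.inr (ext3 (by simp; linarith) (by simp; linarith) (by simp; linarith))

theorem countable_poles : poles.Countable := by
  have : Countable (FreeGroup Bool) := FreeGroup.toWord_injective.countable
  suffices hc : ∀ w : FreeGroup Bool, {u : E3 | ‖u‖ = 1 ∧ w ≠ 1 ∧ toRot w u = u}.Countable by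
    refine (countable_iUnion hc).mono ?_
    rintro u ⟨h1, w, h2, h3⟩
    exact mem_iUnion.2 ⟨w, h1, h2, h3⟩
  intro w
  rcases eq_empty_or_nonempty {u : E3 | ‖u‖ = 1 ∧ w ≠ 1 ∧ toRot w u = u} with h | ⟨a, ha⟩
  · rw [h]
    exact countable_empty
  · refine ((countable_singleton (-a)).insert a).mono fun b hb => ?_
    have hne : toRot w ≠ 1 := fun h => ha.2.1 (toRot_injective (h.trans (map_one toRot).symm))
    exact dot_eq ha.1 hb.1 ((proper_toRot w).cross_eq_zero ha.2.2 hb.2.2 hne)

/-- A rotation whose axis misses a countable set of unit vectors. -/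
theorem exists_absorbing {D : Set E3} (hD : D.Countable) (hu : ∀ d ∈ D, ‖d‖ = 1) :
    ∃ g : E3 ≃ᵢ E3, Proper g ∧ ∀ n : ℕ, ∀ d ∈ D, (g ^ (n + 1)) d ∉ D := by
  have hbad : (⋃ d ∈ D, {t : ℝ | Real.cos t = d 2 ∧ Real.sin t = -d 1} ∪
      {t : ℝ | Real.cos t = -d 2 ∧ Real.sin t = d 1}).Countable :=
    hD.biUnion fun d _ => (countable_angles _ _).union (countable_angles _ _)
  obtain ⟨t, ht⟩ : ∃ t, t ∉ (⋃ d ∈ D, {t : ℝ | Real.cos t = d 2 ∧ Real.sin t = -d 1} ∪
      {t : ℝ | Real.cos t = -d 2 ∧ Real.sin t = d 1}) := by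
    by_contra! h
    exact Cardinal.not_countable_real (hbad.mono fun θ _ => h θ)
  obtain ⟨θ, hθ⟩ := exists_angle (hD.image (rotX t).symm) (by
    rintro _ ⟨d, hd, rfl⟩
    by_contra! hzero
    set p := (rotX t).symm d with hp
    have hpd : rotX t p = d := (rotX t).apply_symm_apply d
    have hn : p 2 ^ 2 = 1 := by
      have h1 : dist p 0 = 1 := by
        rw [← (rotX t).dist_eq, (proper_rotX t).map_zero, hpd, dist_zero_right, hu d hd]
      rw [dist_eq_sqrt, Real.sqrt_eq_one] at h1
      simpa [hzero.1, hzero.2] using h1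
    have e1 := congrArg (fun q : E3 => q 1) hpd
    have e2 := congrArg (fun q : E3 => q 2) hpd
    simp [rotX_apply, hzero.1, hzero.2] at e1 e2
    refine ht (mem_iUnion₂.2 ⟨d, hd, ?_⟩)
    rcases sq_eq_one_iff.1 hn with e | e <;> rw [e] at e1 e2
    · exact Or.inl ⟨by linarith, by linarith⟩
    · exact Or.inr ⟨by linarith, by linarith⟩)
  refine ⟨rotX t * rotZ θ * (rotX t)⁻¹, ((proper_rotX t).mul (proper_rotZ θ)).mul
    (proper_rotX t).inv, fun n d hd he => hθ n _ (mem_image_of_mem _ hd) ⟨_, he, ?_⟩⟩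
  rw [conj_pow]
  exact (rotX t).symm_apply_apply _

/-- The punctured ball. -/
def punctured : Set E3 := ball \ {0}

/-- The points of the punctured ball with trivial stabiliser. -/
def freePart : Set E3 := {x ∈ punctured | ∀ w, toRot w x = x → w = 1}

theorem eqd_ball_punctured : Eqd ball punctured := by
  set p := pt (1 / 2) 0 0 with hp
  obtain ⟨θ, hθ⟩ := exists_angle (countable_singleton (-p)) (by simp [hp])
  have hpow : ∀ n : ℕ, ((shift p * rotZ θ * (shift p)⁻¹) ^ n) 0 = (rotZ θ ^ n) (-p) + p := by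
    intro n
    rw [conj_pow, IsometryEquiv.mul_apply, IsometryEquiv.mul_apply, shift_inv_apply, shift_apply,
      zero_sub]
  have hnorm : ‖p‖ = 1 / 2 := by
    rw [← dist_zero_right, dist_eq_sqrt]
    simp [hp]
  refine Eqd.absorb (shift p * rotZ θ * (shift p)⁻¹) (fun n d hd => ?_) fun n d hd he => ?_
  · rw [mem_singleton_iff] at hd
    subst hd
    rw [hpow, rotZ_pow, Metric.mem_closedBall, dist_zero_right]
    refine (norm_add_le _ _).trans ?_
    rw [← dist_zero_right (rotZ _ _)]
    conv_lhs => arg 1; rw [← (proper_rotZ (n * θ)).map_zero, IsometryEquiv.dist_eq,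
      dist_zero_right, norm_neg]
    rw [hnorm]
    norm_num
  · rw [mem_singleton_iff] at hd
    subst hd
    rw [mem_singleton_iff, hpow] at he
    exact hθ n (-p) rfl (eq_neg_of_add_eq_zero_left he)

theorem eqd_punctured_freePart : Eqd punctured freePart := by
  obtain ⟨g, hg, hgD⟩ := exists_absorbing countable_poles fun d hd => hd.1
  have hgn : ∀ n : ℕ, Proper (g ^ n) := fun n => by
    induction n with
    | zero => exact Proper.one
    | succ n ih => rw [pow_succ]; exact ih.mul hg
  have e : freePart = punctured \ (punctured \ freePart) :=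
    (sdiff_sdiff_right_self.trans (inter_eq_right.2 fun x hx => hx.1)).symm
  rw [e]
  refine Eqd.absorb g (fun n d hd => ⟨mem_ball_of_proper (hgn n) hd.1.1, fun h0 => ?_⟩)
    fun n d hd he => ?_
  · exact hd.1.2 ((g ^ n).injective (h0.trans (hgn n).map_zero.symm))
  · have hd0 : d ≠ 0 := hd.1.2
    have hmem : ∀ x ∈ punctured \ freePart, ‖x‖⁻¹ • x ∈ poles := by
      rintro x ⟨hx, hxf⟩
      obtain ⟨w, hw, hw1⟩ : ∃ w, toRot w x = x ∧ w ≠ 1 := by
        by_contra! h
        exact hxf ⟨hx, h⟩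
      exact ⟨norm_smul_inv_norm (𝕜 := ℝ) hx.2, w, hw1, by rw [(proper_toRot w).map_smul, hw]⟩
    refine hgD n _ (hmem d hd) ?_
    have hlen : ‖(g ^ (n + 1)) d‖ = ‖d‖ := by
      conv_lhs => rw [← dist_zero_right, ← (hgn (n + 1)).map_zero, IsometryEquiv.dist_eq,
        dist_zero_right]
    rw [(hgn _).map_smul, ← hlen]
    exact hmem _ he

theorem freePart_invariant (v : FreeGroup Bool) {x : E3} (hx : x ∈ freePart) :
    toRot v x ∈ freePart := by
  refine ⟨⟨mem_ball_of_proper (proper_toRot v) hx.1.1,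
    fun h0 => hx.1.2 ((toRot v).injective (h0.trans (proper_toRot v).map_zero.symm))⟩,
    fun w hw => ?_⟩
  have h := hx.2 (v⁻¹ * w * v) (by
    rw [map_mul, map_mul, IsometryEquiv.mul_apply, IsometryEquiv.mul_apply, hw, map_inv]
    exact (toRot v).symm_apply_apply x)
  rw [mul_assoc, inv_mul_eq_one, right_eq_mul] at h
  exact h

theorem disjoint_ball_shift {v : E3} (hv : 2 < ‖v‖) : Disjoint ball (shift v '' ball) := by
  refine disjoint_left.2 fun x hx ⟨y, hy, e⟩ => ?_
  rw [Metric.mem_closedBall, dist_zero_right] at hx hy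
  rw [shift_apply] at e
  have : ‖v‖ ≤ ‖x‖ + ‖y‖ := by
    rw [show v = x - y by rw [← e, add_sub_cancel_left]]
    exact norm_sub_le x y
  linarith

/-- **The Banach–Tarski paradox.** -/
theorem eqd_ball_two_balls {v : E3} (hv : 2 < ‖v‖) : Eqd ball (ball ∪ shift v '' ball) := by
  have hball : Eqd ball freePart := eqd_ball_punctured.trans eqd_punctured_freePart
  have hsub : freePart ⊆ ball := fun x hx => hx.1.1
  have hdis : Disjoint freePart (shift v '' freePart) :=
    (disjoint_ball_shift hv).mono hsub (image_mono hsub)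
  have hdouble := Eqd.double toRot (fun w x hx => freePart_invariant w hx)
    (fun w x hx h => hx.2 w h) (shift v) hdis
  have htwo := hball.union ((Eqd.image (shift v) ball).symm.trans
    (hball.trans (Eqd.image (shift v) freePart))) (disjoint_ball_shift hv) hdis
  exact hball.trans (hdouble.trans htwo.symm)

end FA.BanachTarski

end
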