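import Fermat.Agent.BanachTarski.Relation
import Mathlib.GroupTheory.FreeGroup.Reduce

/-!
# The paradox of a free action of the free group on two letters

Words are sorted by first letter, the negative powers of the first generator being moved over.
-/

set_option autoImplicit false

noncomputable section

open Set

namespace FA.BanachTarski

/-- The free group on two letters. -/
abbrev F₂ := FreeGroup Bool

/-- The group element of a letter. -/
def letter (l : Bool × Bool) : F₂ := FreeGroup.mk [l]

/-- The words beginning with a letter. -/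
def starts (l : Bool × Bool) : Set F₂ := {w | w.toWord.head? = some l}

theorem starts_letter_mul (l : Bool × Bool) (w : F₂) :
    letter l * w ∈ starts l ↔ w ∉ starts (l.1, !l.2) := by
  have hw : FreeGroup.IsReduced w.toWord := FreeGroup.isReduced_toWord
  have e : (letter l * w).toWord = FreeGroup.reduce (l :: w.toWord) := by
    conv_lhs => rw [← FreeGroup.mk_toWord (x := w)]
    rw [letter, FreeGroup.mul_mk, FreeGroup.toWord_mk]
    rfl
  simp only [starts, mem_ofPred_eq, e, FreeGroup.reduce.cons, hw.reduce_eq]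
  rcases hL : w.toWord with _ | ⟨⟨x, b⟩, _ | ⟨⟨y, c⟩, tl⟩⟩
  · simp
  · obtain ⟨a, s⟩ := l
    clear hw e hL
    revert a s x b
    decide
  · rw [hL, FreeGroup.IsReduced, List.isChain_cons_cons] at hw
    have h1 := hw.1
    obtain ⟨a, s⟩ := l
    clear hw e hL
    revert a s x b y c
    simp

theorem letter_not (l : Bool × Bool) : letter (l.1, !l.2) = (letter l)⁻¹ := by
  rw [letter, letter, FreeGroup.inv_mk]
  rfl

theorem starts_inv_mul (l : Bool × Bool) (w : F₂) :
    (letter l)⁻¹ * w ∈ starts (l.1, !l.2) ↔ w ∉ starts l := by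
  rw [← letter_not, starts_letter_mul]
  simp

/-- The negative powers of the first generator. -/
def negPowers : Set F₂ := {w | ∃ n : ℕ, (letter (false, true))⁻¹ ^ n = w}

theorem one_notMem_starts (l : Bool × Bool) : (1 : F₂) ∉ starts l := by simp [starts]

theorem disjoint_starts {l l' : Bool × Bool} (h : l ≠ l') {w : F₂} (hw : w ∈ starts l) :
    w ∉ starts l' := fun hw' => h (Option.some.inj (hw.symm.trans hw'))

theorem negPowers_cases {w : F₂} (hw : w ∈ negPowers) :
    w = 1 ∨ w ∈ starts (false, false) := by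
  obtain ⟨n, rfl⟩ := hw
  induction n with
  | zero => simp
  | succ n ih =>
    refine Or.inr ?_
    rw [pow_succ']
    refine (starts_inv_mul (false, true) _).2 ?_
    rcases ih with h | h
    · rw [h]; exact one_notMem_starts _
    · exact disjoint_starts (by simp) h

/-- The four pieces. -/
def piece : Fin 4 → Set F₂ :=
  ![starts (false, true) ∪ negPowers, starts (false, false) \ negPowers, starts (true, true),
    starts (true, false)]

theorem exists_piece (w : F₂) : ∃ i, w ∈ piece i := by
  rcases h : w.toWord.head? with _ | ⟨a, b⟩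
  · exact ⟨0, Or.inr ⟨0, by
      rw [pow_zero]
      exact (FreeGroup.toWord_eq_nil_iff.1 (List.head?_eq_none_iff.1 h)).symm⟩⟩
  · cases a <;> cases b
    · by_cases hp : w ∈ negPowers
      · exact ⟨0, Or.inr hp⟩
      · exact ⟨1, h, hp⟩
    · exact ⟨0, Or.inl h⟩
    · exact ⟨3, h⟩
    · exact ⟨2, h⟩

theorem piece_disjoint {i j : Fin 4} {w : F₂} (hi : w ∈ piece i) (hj : w ∈ piece j) : i = j := by
  have key : ∀ {l l' : Bool × Bool}, l ≠ l' → w ∈ starts l → w ∈ starts l' → False :=
    fun h h₁ h₂ => disjoint_starts h h₁ h₂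
  have hP : ∀ l : Bool × Bool, l ≠ (false, false) → w ∈ starts l → w ∉ negPowers := fun l hl h h' =>
    (negPowers_cases h').elim (fun e => one_notMem_starts l (e ▸ h)) fun h'' => key hl h h''
  have h01 : w ∈ piece 0 → w ∈ piece 1 → False := fun h h' =>
    h.elim (fun ha => key (by simp) ha h'.1) h'.2
  have h02 : w ∈ piece 0 → w ∈ piece 2 → False := fun h h' =>
    h.elim (fun ha => key (by simp) ha h') (hP _ (by simp) h')
  have h03 : w ∈ piece 0 → w ∈ piece 3 → False := fun h h' =>
    h.elim (fun ha => key (by simp) ha h') (hP _ (by simp) h')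
  have h12 : w ∈ piece 1 → w ∈ piece 2 → False := fun h h' => key (by simp) h.1 h'
  have h13 : w ∈ piece 1 → w ∈ piece 3 → False := fun h h' => key (by simp) h.1 h'
  have h23 : w ∈ piece 2 → w ∈ piece 3 → False := fun h h' => key (by simp) h h'
  fin_cases i <;> fin_cases j <;>
    first
    | rfl
    | exact (h01 hi hj).elim
    | exact (h02 hi hj).elim
    | exact (h03 hi hj).elim
    | exact (h12 hi hj).elim
    | exact (h13 hi hj).elim
    | exact (h23 hi hj).elim
    | exact (h01 hj hi).elim
    | exact (h02 hj hi).elim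
    | exact (h03 hj hi).elim
    | exact (h12 hj hi).elim
    | exact (h13 hj hi).elim
    | exact (h23 hj hi).elim

theorem shift_left (w : F₂) : (letter (false, true))⁻¹ * w ∈ piece 1 ↔ w ∉ piece 0 := by
  show _ ∈ starts (false, !true) \ negPowers ↔ w ∉ starts (false, true) ∪ negPowers
  rw [mem_sdiff, starts_inv_mul (false, true), mem_union, not_or]
  refine and_congr_right fun hw => not_congr ⟨?_, ?_⟩
  · rintro ⟨_ | n, e⟩
    · refine absurd ?_ hw
      rw [pow_zero, eq_comm, inv_mul_eq_one] at e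
      rw [← e, starts, mem_ofPred_eq, letter, FreeGroup.toWord_mk]
      rfl
    · exact ⟨n, mul_left_cancel (by rwa [← pow_succ'])⟩
  · rintro ⟨n, rfl⟩
    exact ⟨n + 1, pow_succ' _ _⟩

theorem shift_right (w : F₂) : (letter (true, true))⁻¹ * w ∈ piece 3 ↔ w ∉ piece 2 :=
  starts_inv_mul (true, true) w

variable {α : Type*} [PseudoMetricSpace α]

/-- **The paradox.** A free invariant set is equidecomposable with two copies of itself. -/
theorem Eqd.double [Nonempty α] (φ : F₂ →* (α ≃ᵢ α)) {X : Set α}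
    (hX : ∀ w, ∀ x ∈ X, φ w x ∈ X) (hfree : ∀ w, ∀ x ∈ X, φ w x = x → w = 1) (T : α ≃ᵢ α)
    (hT : Disjoint X (T '' X)) : Eqd X (X ∪ T '' X) := by
  classical
  have hmul : ∀ v w (x : α), φ (v * w) x = φ v (φ w x) := fun v w x => by rw [map_mul]; rfl
  have hinv : ∀ w (x : α), φ w⁻¹ (φ w x) = x := fun w x => by
    rw [← hmul, inv_mul_cancel, map_one]
    rfl
  -- a point in each orbit
  set rep : α → α := fun x => Classical.epsilon fun y => ∃ w, φ w y = x with hrep
  have hex : ∀ x, ∃ w, φ w (rep x) = x :=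
    fun x => Classical.epsilon_spec (p := fun y => ∃ w, φ w y = x) ⟨x, 1, by rw [map_one]; rfl⟩
  choose code hcode using hex
  have hrepX : ∀ x ∈ X, rep x ∈ X := fun x hx => by
    rw [← hinv (code x) (rep x), hcode]
    exact hX _ x hx
  have hrep' : ∀ v x, rep (φ v x) = rep x := fun v x => by
    refine congrArg Classical.epsilon (funext fun y => propext ⟨?_, ?_⟩)
    · rintro ⟨w, hw⟩
      exact ⟨v⁻¹ * w, by rw [hmul, hw, hinv]⟩
    · rintro ⟨w, hw⟩
      exact ⟨v * w, by rw [hmul, hw]⟩
  have hcode' : ∀ v, ∀ x ∈ X, code (φ v x) = v * code x := fun v x hx => by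
    have h1 : φ (v * code x) (rep x) = φ (code (φ v x)) (rep x) := by
      rw [hmul, hcode, ← hrep' v x, hcode]
    have h2 : φ ((code (φ v x))⁻¹ * (v * code x)) (rep x) = rep x := by rw [hmul, h1, hinv]
    exact inv_mul_eq_one.1 (hfree _ _ (hrepX x hx) h2)
  set Q : Fin 4 → Set α := fun i => {x ∈ X | code x ∈ piece i} with hQ
  -- the images of the second and fourth parts
  have himg : ∀ (v : F₂) (i j : Fin 4), (∀ w, v⁻¹ * w ∈ piece i ↔ w ∉ piece j) →
      φ v '' Q i = X \ Q j := fun v i j hv => by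
    ext x
    constructor
    · rintro ⟨y, ⟨hy, hc⟩, rfl⟩
      refine ⟨hX v y hy, fun h => (hv (v * code y)).1 (by rwa [inv_mul_cancel_left]) ?_⟩
      rw [← hcode' v y hy]
      exact h.2
    · rintro ⟨hx, hc⟩
      refine ⟨φ v⁻¹ x, ⟨hX _ x hx, ?_⟩, by rw [← hmul, mul_inv_cancel, map_one]; rfl⟩
      rw [hcode' _ x hx]
      exact (hv _).2 fun h => hc ⟨hx, h⟩
  have hdisj : ∀ i j, i ≠ j → Disjoint (Q i) (Q j) := fun i j hij =>
    disjoint_left.2 fun x hi hj => hij (piece_disjoint hi.2 hj.2)
  have hQX : ∀ i, Q i ⊆ X := fun i x hx => hx.1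
  have hhalf : ∀ (v : F₂) (i j : Fin 4), i ≠ j → (∀ w, v⁻¹ * w ∈ piece i ↔ w ∉ piece j) →
      Eqd (Q j ∪ Q i) X := fun v i j hij hv => by
    have h := (Eqd.refl (Q j)).union (Eqd.image (φ v) (Q i)) (hdisj j i hij.symm)
      (by rw [himg v i j hv]; exact disjoint_sdiff_right)
    rwa [himg v i j hv, union_sdiff_cancel (hQX j)] at h
  have h₁ := hhalf _ 1 0 (by decide) shift_left
  have h₂ := (hhalf _ 3 2 (by decide) shift_right).trans (Eqd.image T X)
  have hall : Q 0 ∪ Q 1 ∪ (Q 2 ∪ Q 3) = X := by
    refine Subset.antisymm (union_subset (union_subset (hQX 0) (hQX 1))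
      (union_subset (hQX 2) (hQX 3))) fun x hx => ?_
    obtain ⟨i, hi⟩ := exists_piece (code x)
    have hxi : x ∈ Q i := ⟨hx, hi⟩
    fin_cases i
    · exact Or.inl (Or.inl hxi)
    · exact Or.inl (Or.inr hxi)
    · exact Or.inr (Or.inl hxi)
    · exact Or.inr (Or.inr hxi)
  have h := h₁.union h₂ (by
    simp only [disjoint_union_left, disjoint_union_right]
    exact ⟨⟨hdisj _ _ (by decide), hdisj _ _ (by decide)⟩,
      ⟨hdisj _ _ (by decide), hdisj _ _ (by decide)⟩⟩) hT
  rwa [hall] at h

end FA.BanachTarski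

end
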