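import Mathlib.Data.Finset.NAry
import Mathlib.Data.Set.Function
import Mathlib.Topology.MetricSpace.Isometry
import Mathlib.Tactic

/-!
# Equidecomposability by isometries

Two sets are equidecomposable when some bijection between them agrees at each point with one of
finitely many isometries of the whole space.
-/

set_option autoImplicit false

noncomputable section

open Set

namespace FA.BanachTarski

variable {α : Type*} [PseudoMetricSpace α]

/-- Equidecomposable by isometries. -/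
def Eqd (A B : Set α) : Prop :=
  ∃ (f : α → α) (S : Finset (α ≃ᵢ α)), BijOn f A B ∧ ∀ a ∈ A, ∃ g ∈ S, f a = g a

theorem Eqd.image (g : α ≃ᵢ α) (A : Set α) : Eqd A (g '' A) :=
  ⟨g, {g}, g.injective.injOn.bijOn_image, fun _ _ => ⟨g, Finset.mem_singleton_self g, rfl⟩⟩

theorem Eqd.refl (A : Set α) : Eqd A A := by
  simpa using Eqd.image (1 : α ≃ᵢ α) A

theorem Eqd.trans {A B C : Set α} (h : Eqd A B) (h' : Eqd B C) : Eqd A C := by
  classical
  obtain ⟨f, S, hf, hS⟩ := h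
  obtain ⟨f', S', hf', hS'⟩ := h'
  refine ⟨f' ∘ f, Finset.image₂ (· * ·) S' S, hf'.comp hf, fun a ha => ?_⟩
  obtain ⟨g, hg, e⟩ := hS a ha
  obtain ⟨g', hg', e'⟩ := hS' _ (hf.mapsTo ha)
  exact ⟨g' * g, Finset.mem_image₂_of_mem hg' hg, by rw [Function.comp, e', e]; rfl⟩

theorem Eqd.symm {A B : Set α} (h : Eqd A B) : Eqd B A := by
  classical
  rcases A.eq_empty_or_nonempty with rfl | ⟨a₀, -⟩
  · obtain ⟨f, S, hf, -⟩ := h
    rw [← hf.image_eq, image_empty]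
    exact Eqd.refl _
  have : Nonempty α := ⟨a₀⟩
  obtain ⟨f, S, hf, hS⟩ := h
  refine ⟨Function.invFunOn f A, S.image (·⁻¹), hf.symm hf.invOn_invFunOn.symm, fun b hb => ?_⟩
  obtain ⟨g, hg, e⟩ := hS _ (hf.surjOn.mapsTo_invFunOn hb)
  refine ⟨g⁻¹, Finset.mem_image_of_mem _ hg, ?_⟩
  rw [hf.invOn_invFunOn.2 hb] at e
  conv_rhs => rw [e]
  exact (g.symm_apply_apply _).symm

/-- Gluing. -/
theorem Eqd.union {A A' B B' : Set α} (h : Eqd A B) (h' : Eqd A' B') (hA : Disjoint A A')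
    (hB : Disjoint B B') : Eqd (A ∪ A') (B ∪ B') := by
  classical
  obtain ⟨f, S, hf, hS⟩ := h
  obtain ⟨f', S', hf', hS'⟩ := h'
  have e₁ : EqOn (A.piecewise f f') f A := piecewise_eqOn A f f'
  have e₂ : EqOn (A.piecewise f f') f' A' := fun a ha =>
    piecewise_eq_of_notMem A f f' (disjoint_right.1 hA ha)
  refine ⟨A.piecewise f f', S ∪ S', ?_, fun a ha => ?_⟩
  · have hf₁ := hf.congr e₁.symm
    have hf₂ := hf'.congr e₂.symm
    refine hf₁.union hf₂ (injOn_union hA |>.2 ⟨hf₁.injOn, hf₂.injOn, fun a ha b hb heq => ?_⟩)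
    exact disjoint_left.1 hB (hf₁.mapsTo ha) (heq ▸ hf₂.mapsTo hb)
  · rcases ha with ha | ha
    · obtain ⟨g, hg, e⟩ := hS a ha
      exact ⟨g, Finset.mem_union_left _ hg, (e₁ ha).trans e⟩
    · obtain ⟨g, hg, e⟩ := hS' a ha
      exact ⟨g, Finset.mem_union_right _ hg, (e₂ ha).trans e⟩

/-- **Absorption.** -/
theorem Eqd.absorb (g : α ≃ᵢ α) {A D : Set α} (hA : ∀ n : ℕ, ∀ d ∈ D, (g ^ n) d ∈ A)
    (hd : ∀ n : ℕ, ∀ d ∈ D, (g ^ (n + 1)) d ∉ D) : Eqd A (A \ D) := by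
  set O : Set α := {x | ∃ n : ℕ, ∃ d ∈ D, (g ^ n) d = x} with hO
  have hOA : O ⊆ A := fun x ⟨n, d, hdD, e⟩ => e ▸ hA n d hdD
  have hstep : ∀ (n : ℕ) (d : α), g ((g ^ n) d) = (g ^ (n + 1)) d := fun n d => by
    rw [pow_succ']
    rfl
  have himg : g '' O = O \ D := by
    refine Subset.antisymm ?_ ?_
    · rintro _ ⟨_, ⟨n, d, hdD, rfl⟩, rfl⟩
      rw [hstep]
      exact ⟨⟨n + 1, d, hdD, rfl⟩, hd n d hdD⟩
    · rintro _ ⟨⟨_ | n, d, hdD, rfl⟩, hx⟩
      · exact absurd hdD hx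
      · exact ⟨(g ^ n) d, ⟨n, d, hdD, rfl⟩, hstep n d⟩
  have hDO : D ⊆ O := fun d hdD => ⟨0, d, hdD, rfl⟩
  have key := (Eqd.image g O).union (Eqd.refl (A \ O)) disjoint_sdiff_right
    (himg ▸ disjoint_sdiff_right.mono_left sdiff_subset)
  rw [himg, union_sdiff_cancel hOA] at key
  have e : O \ D ∪ A \ O = A \ D := by
    ext x
    simp only [mem_union, mem_sdiff]
    exact ⟨fun h => h.elim (fun h1 => ⟨hOA h1.1, h1.2⟩) fun h1 => ⟨h1.1, fun hx => h1.2 (hDO hx)⟩,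
      fun h => (em (x ∈ O)).imp (fun h1 => ⟨h1, h.2⟩) fun h1 => ⟨h.1, h1⟩⟩
  rwa [e] at key

/-- The pieces of an equidecomposition. -/
theorem Eqd.exists_pieces {A B : Set α} (h : Eqd A B) :
    ∃ (n : ℕ) (P : Fin n → Set α) (g : Fin n → α ≃ᵢ α),
      Pairwise (fun i j => Disjoint (P i) (P j)) ∧ ⋃ i, P i = A ∧
      Pairwise (fun i j => Disjoint (g i '' P i) (g j '' P j)) ∧ ⋃ i, g i '' P i = B := by
  classical
  obtain ⟨f, S, hf, hS⟩ := h
  choose! c hcS hc using hS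
  refine ⟨S.card, fun i => {a ∈ A | c a = S.equivFin.symm i}, fun i => S.equivFin.symm i,
    fun i j hij => disjoint_left.2 fun a hi hj => hij (S.equivFin.symm.injective
      (Subtype.ext (hi.2.symm.trans hj.2))), ?_, ?_, ?_⟩
  · ext a
    simp only [mem_iUnion, mem_ofPred_eq]
    exact ⟨fun ⟨i, ha, _⟩ => ha, fun ha => ⟨S.equivFin ⟨c a, hcS a ha⟩, ha, by simp⟩⟩
  · intro i j hij
    rw [disjoint_left]
    rintro _ ⟨a, ⟨ha, hca⟩, rfl⟩ ⟨b, ⟨hb, hcb⟩, e⟩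
    simp only [← hca, ← hcb, ← hc b hb, ← hc a ha] at e
    obtain rfl := hf.injOn hb ha e
    exact hij (S.equivFin.symm.injective (Subtype.ext (hca.symm.trans hcb)))
  · rw [← hf.image_eq]
    ext x
    simp only [mem_iUnion, Set.mem_image, mem_ofPred_eq]
    constructor
    · rintro ⟨i, a, ⟨ha, hca⟩, rfl⟩
      exact ⟨a, ha, by rw [hc a ha, hca]⟩
    · rintro ⟨a, ha, rfl⟩
      exact ⟨S.equivFin ⟨c a, hcS a ha⟩, a, ⟨ha, by simp⟩, by simp [hc a ha]⟩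

end FA.BanachTarski

end
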